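import Fermat.Agent.H30.MW.MoveInterfaces

/-!
# P-MW, row MV-SEP (helper5): separable specialisations of a minimal relation

`h` transcendental over `ℚ`, `F(h, t) = 0` for some `F ≠ 0` in `ℚ[X][Y]`.  With `L = Frac ℚ[X]`
acting on `K` through `X ↦ h`, the minimal polynomial `μ` of `t` over `L` is separable
(characteristic zero): `a μ + b μ' = 1`.  Clearing denominators gives `G, A, B ∈ ℚ[X][Y]` and
`D ≠ 0` in `ℚ[X]` with `A G + B G' = D`; the specialisation `G(c, Y)` is separable as soon as
`D(c) ≠ 0`.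
-/

set_option autoImplicit false
set_option linter.style.haveILetI false

noncomputable section

namespace Fermat.Agent.H5.MW

open Polynomial Fermat.Agent.H30.MW
open scoped nonZeroDivisors

/-- **MV-SEP**. -/
theorem sep : SepStatement := by
  classical
  intro K _ _ h t hh hF
  obtain ⟨F, hF0, hF⟩ := hF
  -- the fraction field of `ℚ[X]` acts on `K` through `X ↦ h`
  set φ : ℚ[X] →+* K := (aeval (R := ℚ) h).toRingHom with hφdef
  have hφ : Function.Injective φ := transcendental_iff_injective.mp hh
  set ψ : FractionRing ℚ[X] →+* K := IsFractionRing.lift hφ with hψdef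
  have hψ : ∀ a : ℚ[X], ψ (algebraMap ℚ[X] (FractionRing ℚ[X]) a) = φ a :=
    fun a => IsFractionRing.lift_algebraMap hφ a
  have hψc : ψ.comp (algebraMap ℚ[X] (FractionRing ℚ[X])) = φ := RingHom.ext hψ
  have hinj : Function.Injective (algebraMap ℚ[X] (FractionRing ℚ[X])) :=
    IsFractionRing.injective _ _
  letI : Algebra (FractionRing ℚ[X]) K := ψ.toAlgebra
  have halgmap : algebraMap (FractionRing ℚ[X]) K = ψ := rfl
  -- `t` is algebraic over `L`
  have halg : IsAlgebraic (FractionRing ℚ[X]) t := by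
    refine ⟨F.map (algebraMap ℚ[X] (FractionRing ℚ[X])), ?_, ?_⟩
    · exact (Polynomial.map_ne_zero_iff hinj).mpr hF0
    · rw [aeval_def, halgmap, eval₂_map, hψc, ← eval_map]
      exact hF
  have hint : IsIntegral (FractionRing ℚ[X]) t := halg.isIntegral
  set μ := minpoly (FractionRing ℚ[X]) t with hμ
  have hμt : eval₂ ψ t μ = 0 := by
    have := minpoly.aeval (FractionRing ℚ[X]) t
    rwa [aeval_def, halgmap] at this
  have hsep : μ.Separable := (minpoly.irreducible hint).separable
  obtain ⟨a, b, hab⟩ := hsep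
  -- clear denominators
  obtain ⟨d₁, hd₁M, hd₁⟩ := IsLocalization.integerNormalization_spec (ℚ[X])⁰ μ
  obtain ⟨d₂, hd₂M, hd₂⟩ := IsLocalization.integerNormalization_spec (ℚ[X])⁰ a
  obtain ⟨d₃, hd₃M, hd₃⟩ := IsLocalization.integerNormalization_spec (ℚ[X])⁰ b
  set G := IsLocalization.integerNormalization (ℚ[X])⁰ μ with hG
  set A := IsLocalization.integerNormalization (ℚ[X])⁰ a with hA
  set B := IsLocalization.integerNormalization (ℚ[X])⁰ b with hB
  set D : ℚ[X] := d₁ * d₂ * d₃ with hD
  have hD0 : D ≠ 0 :=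
    mul_ne_zero (mul_ne_zero (nonZeroDivisors.ne_zero hd₁M) (nonZeroDivisors.ne_zero hd₂M))
      (nonZeroDivisors.ne_zero hd₃M)
  have e1 : G.map (algebraMap ℚ[X] (FractionRing ℚ[X])) =
      C (algebraMap ℚ[X] (FractionRing ℚ[X]) d₁) * μ := by
    rw [hd₁, Algebra.smul_def, Polynomial.algebraMap_apply]
  have e2 : A.map (algebraMap ℚ[X] (FractionRing ℚ[X])) =
      C (algebraMap ℚ[X] (FractionRing ℚ[X]) d₂) * a := by
    rw [hd₂, Algebra.smul_def, Polynomial.algebraMap_apply]
  have e3 : B.map (algebraMap ℚ[X] (FractionRing ℚ[X])) =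
      C (algebraMap ℚ[X] (FractionRing ℚ[X]) d₃) * b := by
    rw [hd₃, Algebra.smul_def, Polynomial.algebraMap_apply]
  -- the identity over `ℚ[X]`
  have hid : C d₃ * A * G + C d₂ * B * derivative G = C D := by
    apply Polynomial.map_injective _ hinj
    rw [Polynomial.map_add, Polynomial.map_mul, Polynomial.map_mul, Polynomial.map_mul,
      Polynomial.map_mul, Polynomial.map_C, Polynomial.map_C, Polynomial.map_C,
      ← Polynomial.derivative_map, e1, e2, e3, Polynomial.derivative_C_mul, hD]
    simp only [map_mul]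
    linear_combination (C (algebraMap ℚ[X] (FractionRing ℚ[X]) d₁) *
      C (algebraMap ℚ[X] (FractionRing ℚ[X]) d₂) *
      C (algebraMap ℚ[X] (FractionRing ℚ[X]) d₃)) * hab
  refine ⟨G, ?_, ?_⟩
  · -- `G(h, t) = 0`
    unfold eval₂₂
    rw [eval_map]
    show eval₂ φ t G = 0
    rw [← hψc, ← eval₂_map, e1, eval₂_mul, hμt, mul_zero]
  · -- separability of the specialisations
    refine (Polynomial.finite_setOfPred_isRoot hD0).subset fun c hc => ?_
    by_contra hDc
    apply hc
    have hDc' : D.eval c ≠ 0 := hDc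
    have hspec := congrArg (Polynomial.map (evalRingHom c)) hid
    rw [Polynomial.map_add, Polynomial.map_mul, Polynomial.map_mul, Polynomial.map_mul,
      Polynomial.map_mul, Polynomial.map_C, Polynomial.map_C, Polynomial.map_C,
      ← Polynomial.derivative_map] at hspec
    simp only [coe_evalRingHom] at hspec
    refine ⟨C (D.eval c)⁻¹ * (C (d₃.eval c) * A.map (evalRingHom c)),
      C (D.eval c)⁻¹ * (C (d₂.eval c) * B.map (evalRingHom c)), ?_⟩
    have h1 : C (D.eval c)⁻¹ * C (D.eval c) = (1 : ℚ[X]) := by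
      rw [← C_mul, inv_mul_cancel₀ hDc', C_1]
    linear_combination (C (D.eval c)⁻¹) * hspec + h1

end Fermat.Agent.H5.MW

end
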