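import Fermat.Agent.H5.MW.Ideals

/-!
# P-MW, row MW-ASM (helper5): the assembly

The seven top-level contracts `CI`, `SHIFT`, `WCUBE`, `HADD`, `MINK`, `NORTH`, `MOVE` and weak
Mordell-Weil give finite generation of the class group, by the descent theorem
`CommGroup.fg_of_descent'` applied to `h x = q x + q x⁻¹ + c`, `q x = Q_l(I_x)`.
-/

set_option autoImplicit false
set_option linter.unusedSectionVars false

noncomputable section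

namespace Fermat.Agent.H5.MW

open Module Fermat.Agent.H92.MW
open scoped nonZeroDivisors

variable {R : Type} [CommRing R] [Algebra ℚ R] [IsDedekindDomain R]

/-! ### iterated SHIFT -/

/-- SHIFT iterated `k` times: `G_{m+k}(I) = G_m(I) + k h_∞(I) + O(1)`. -/
theorem mw_shift_iter (𝒞 : MWDatum R) (hS : 𝒞.ShiftStatement) (d m : ℕ) (hm : d + 𝒞.m₀ ≤ m)
    (k : ℕ) :
    ∃ C : ℝ, ∀ I : Ideal R, I ≠ ⊥ → Squarefree I → 𝒞.deg I = d →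
      |𝒞.gH (m + k) I - 𝒞.gH m I - k * 𝒞.hInf I| ≤ C := by
  induction k with
  | zero => exact ⟨0, fun I _ _ _ => by simp⟩
  | succ k ih =>
    obtain ⟨C, hC⟩ := ih
    obtain ⟨C', hC'⟩ := hS (m + k) d (by omega)
    refine ⟨C + C', fun I hI hsq hd => ?_⟩
    have h1 := hC I hI hsq hd
    have h2 := hC' I hI hsq hd
    have e : m + (k + 1) = m + k + 1 := by ring
    rw [e]
    rw [abs_le] at h1 h2 ⊢
    push_cast
    constructor <;> linarith [h1.1, h1.2, h2.1, h2.2]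

/-! ### the cancellation behind the cube relation (real numbers) -/

theorem mw_cube_real (l d : ℝ) (hl : 0 ≤ l) (hd : 0 ≤ d)
    (G123 G12 G13 G23 G1 G2 G3 g12 g13 g23 g1 g2 g3 h123 h12 h13 h23 h1 h2 h3 : ℝ)
    (CW CS1 CS2 CH : ℝ)
    (hW : |G123 - G12 - G13 - G23 + G1 + G2 + G3| ≤ CW)
    (hs12 : |G12 - g12 - d * h12| ≤ CS2) (hs13 : |G13 - g13 - d * h13| ≤ CS2)
    (hs23 : |G23 - g23 - d * h23| ≤ CS2)
    (hs1 : |G1 - g1 - 2 * d * h1| ≤ CS1) (hs2 : |G2 - g2 - 2 * d * h2| ≤ CS1)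
    (hs3 : |G3 - g3 - 2 * d * h3| ≤ CS1)
    (hh12 : |h12 - h1 - h2| ≤ CH) (hh13 : |h13 - h1 - h3| ≤ CH) (hh23 : |h23 - h2 - h3| ≤ CH)
    (hh123 : |h123 - h12 - h3| ≤ CH) :
    |(G123 - l * h123) - (g12 - l * h12) - (g13 - l * h13) - (g23 - l * h23)
        + (g1 - l * h1) + (g2 - l * h2) + (g3 - l * h3)|
      ≤ CW + 3 * CS1 + 3 * CS2 + (2 * l + 3 * (d + l)) * CH := by
  rw [abs_le] at *
  -- scaled error terms
  have a1 := mul_le_mul_of_nonneg_left hh12.1 hl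
  have a2 := mul_le_mul_of_nonneg_left hh12.2 hl
  have a3 := mul_le_mul_of_nonneg_left hh13.1 hl
  have a4 := mul_le_mul_of_nonneg_left hh13.2 hl
  have a5 := mul_le_mul_of_nonneg_left hh23.1 hl
  have a6 := mul_le_mul_of_nonneg_left hh23.2 hl
  have a7 := mul_le_mul_of_nonneg_left hh123.1 hl
  have a8 := mul_le_mul_of_nonneg_left hh123.2 hl
  have b1 := mul_le_mul_of_nonneg_left hh12.1 hd
  have b2 := mul_le_mul_of_nonneg_left hh12.2 hd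
  have b3 := mul_le_mul_of_nonneg_left hh13.1 hd
  have b4 := mul_le_mul_of_nonneg_left hh13.2 hd
  have b5 := mul_le_mul_of_nonneg_left hh23.1 hd
  have b6 := mul_le_mul_of_nonneg_left hh23.2 hd
  constructor <;> nlinarith [hW.1, hW.2, hs12.1, hs12.2, hs13.1, hs13.2, hs23.1, hs23.2,
    hs1.1, hs1.2, hs2.1, hs2.2, hs3.1, hs3.2]

/-! ### the cube relation for `Q_l` on ideals -/

theorem mw_qH_eq (𝒞 : MWDatum R) (l : ℕ) (I : Ideal R) (d m : ℕ) (hd : 𝒞.deg I = d)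
    (hm : d + l + 𝒞.g - 1 = m) :
    𝒞.qH l I = 𝒞.gH m I - l * 𝒞.hInf I := by
  unfold MWDatum.qH
  rw [hd, hm]

/-- The cube relation for `Q_l` on pairwise coprime squarefree ideals of degree `d`. -/
theorem mw_cube_ideals (𝒞 : MWDatum R) (hS : 𝒞.ShiftStatement) (hW : 𝒞.WCubeStatement)
    (hH : 𝒞.HAddStatement) (l d : ℕ) (hl : 1 ≤ l) (hlg : 𝒞.m₀ + 1 ≤ l + 𝒞.g) :
    ∃ C : ℝ, ∀ I₁ I₂ I₃ : Ideal R, I₁ ≠ ⊥ → I₂ ≠ ⊥ → I₃ ≠ ⊥ →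
      Squarefree I₁ → Squarefree I₂ → Squarefree I₃ →
      IsCoprime I₂ I₁ → IsCoprime I₃ (I₁ * I₂) →
      𝒞.deg I₁ = d → 𝒞.deg I₂ = d → 𝒞.deg I₃ = d →
      |𝒞.qH l (I₁ * I₂ * I₃) - 𝒞.qH l (I₁ * I₂) - 𝒞.qH l (I₁ * I₃) - 𝒞.qH l (I₂ * I₃)
          + 𝒞.qH l I₁ + 𝒞.qH l I₂ + 𝒞.qH l I₃| ≤ C := by
  obtain ⟨CS1, hCS1⟩ := mw_shift_iter 𝒞 hS d (d + l + 𝒞.g - 1) (by omega) (2 * d)
  obtain ⟨CS2, hCS2⟩ := mw_shift_iter 𝒞 hS (2 * d) (2 * d + l + 𝒞.g - 1) (by omega) d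
  obtain ⟨CW, hCW⟩ := hW (3 * d + l + 𝒞.g - 1) d d d (by omega)
  obtain ⟨CH, hCH⟩ := hH (2 * d)
  refine ⟨CW + 3 * CS1 + 3 * CS2 + (2 * (l : ℝ) + 3 * ((d : ℝ) + l)) * CH,
    fun I₁ I₂ I₃ h1 h2 h3 s1 s2 s3 c21 c3 d1 d2 d3 => ?_⟩
  -- coprimality
  have c12 : IsCoprime I₁ I₂ := c21.symm
  have c31 : IsCoprime I₃ I₁ := c3.of_mul_right_left
  have c32 : IsCoprime I₃ I₂ := c3.of_mul_right_right
  have c13 : IsCoprime I₁ I₃ := c31.symm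
  have c23 : IsCoprime I₂ I₃ := c32.symm
  -- nonvanishing
  have h12 : I₁ * I₂ ≠ ⊥ := mw_mul_ne_bot h1 h2
  have h13 : I₁ * I₃ ≠ ⊥ := mw_mul_ne_bot h1 h3
  have h23 : I₂ * I₃ ≠ ⊥ := mw_mul_ne_bot h2 h3
  have h123 : I₁ * I₂ * I₃ ≠ ⊥ := mw_mul_ne_bot h12 h3
  -- squarefree
  have s12 : Squarefree (I₁ * I₂) := mw_squarefree_mul s1 s2 c12
  have s13 : Squarefree (I₁ * I₃) := mw_squarefree_mul s1 s3 c13
  have s23 : Squarefree (I₂ * I₃) := mw_squarefree_mul s2 s3 c23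
  have s123 : Squarefree (I₁ * I₂ * I₃) := mw_squarefree_mul s12 s3 c3.symm
  -- degrees
  have d12 : 𝒞.deg (I₁ * I₂) = 2 * d := by
    rw [mw_deg_mul_of_isCoprime 𝒞 I₁ I₂ h1 h2 c12, d1, d2]; ring
  have d13 : 𝒞.deg (I₁ * I₃) = 2 * d := by
    rw [mw_deg_mul_of_isCoprime 𝒞 I₁ I₃ h1 h3 c13, d1, d3]; ring
  have d23 : 𝒞.deg (I₂ * I₃) = 2 * d := by
    rw [mw_deg_mul_of_isCoprime 𝒞 I₂ I₃ h2 h3 c23, d2, d3]; ring
  have d123 : 𝒞.deg (I₁ * I₂ * I₃) = 3 * d := by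
    rw [mw_deg_mul_of_isCoprime 𝒞 (I₁ * I₂) I₃ h12 h3 c3.symm, d12, d3]; ring
  -- the levels
  have e1 : d + l + 𝒞.g - 1 + 2 * d = 3 * d + l + 𝒞.g - 1 := by omega
  have e2 : 2 * d + l + 𝒞.g - 1 + d = 3 * d + l + 𝒞.g - 1 := by omega
  -- rewrite the `Q_l`
  rw [mw_qH_eq 𝒞 l _ _ _ d123 rfl, mw_qH_eq 𝒞 l _ _ _ d12 rfl, mw_qH_eq 𝒞 l _ _ _ d13 rfl,
    mw_qH_eq 𝒞 l _ _ _ d23 rfl, mw_qH_eq 𝒞 l _ _ _ d1 rfl, mw_qH_eq 𝒞 l _ _ _ d2 rfl,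
    mw_qH_eq 𝒞 l _ _ _ d3 rfl]
  -- SHIFT
  have t1 := hCS1 I₁ h1 s1 d1
  have t2 := hCS1 I₂ h2 s2 d2
  have t3 := hCS1 I₃ h3 s3 d3
  have t12 := hCS2 (I₁ * I₂) h12 s12 d12
  have t13 := hCS2 (I₁ * I₃) h13 s13 d13
  have t23 := hCS2 (I₂ * I₃) h23 s23 d23
  rw [e1] at t1 t2 t3
  rw [e2] at t12 t13 t23
  push_cast at t1 t2 t3
  -- HADD
  have dle : d ≤ 2 * d := by omega
  have a12 := hCH I₁ I₂ h1 h2 (d1 ▸ dle) (d2 ▸ dle)
  have a13 := hCH I₁ I₃ h1 h3 (d1 ▸ dle) (d3 ▸ dle)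
  have a23 := hCH I₂ I₃ h2 h3 (d2 ▸ dle) (d3 ▸ dle)
  have a123 := hCH (I₁ * I₂) I₃ h12 h3 d12.le (d3 ▸ dle)
  -- WCUBE
  have w := hCW I₁ I₂ I₃ h123 s123 d1 d2 d3
  exact mw_cube_real l d (Nat.cast_nonneg l) (Nat.cast_nonneg d) _ _ _ _ _ _ _ _ _ _ _ _ _ _ _ _ _
    _ _ _ CW CS1 CS2 CH w t12 t13 t23 t1 t2 t3 a12 a13 a23 a123

/-! ### the cube relation on classes -/

/-- The cube relation for `q x = Q_l(rep x)` on the class group. -/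
theorem mw_cube_classes (𝒞 : MWDatum R) (hCI : 𝒞.CIStatement) (hS : 𝒞.ShiftStatement)
    (hW : 𝒞.WCubeStatement) (hH : 𝒞.HAddStatement) (l d : ℕ) (hl : 1 ≤ l)
    (hlg : 𝒞.m₀ + 1 ≤ l + 𝒞.g)
    (hMove : ∀ (x : ClassGroup R) (J : Ideal R), J ≠ ⊥ →
      ∃ I : (Ideal R)⁰, Squarefree (I : Ideal R) ∧ IsCoprime (I : Ideal R) J ∧
        𝒞.deg I = d ∧ ClassGroup.mk0 I = x)
    (rep : ClassGroup R → (Ideal R)⁰)
    (hrep : ∀ x, 𝒞.deg (rep x) = d ∧ ClassGroup.mk0 (rep x) = x) :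
    ∃ C : ℝ, ∀ x y z : ClassGroup R,
      |𝒞.qH l (rep (x * y * z)) - 𝒞.qH l (rep (x * y)) - 𝒞.qH l (rep (x * z))
          - 𝒞.qH l (rep (y * z)) + 𝒞.qH l (rep x) + 𝒞.qH l (rep y) + 𝒞.qH l (rep z)| ≤ C := by
  obtain ⟨C₀, hC₀⟩ := mw_cube_ideals 𝒞 hS hW hH l d hl hlg
  obtain ⟨C₁, hC₁⟩ := hCI l (3 * d) hl hlg
  refine ⟨C₀ + 7 * C₁, fun x y z => ?_⟩
  obtain ⟨I₁, s1, -, d1, m1⟩ := hMove x ⊤ top_ne_bot
  obtain ⟨I₂, s2, c21, d2, m2⟩ := hMove y I₁ (mw_ne_bot_of_mem I₁)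
  obtain ⟨I₃, s3, c3, d3, m3⟩ := hMove z ((I₁ : Ideal R) * I₂)
    (mw_mul_ne_bot (mw_ne_bot_of_mem I₁) (mw_ne_bot_of_mem I₂))
  have h1 := mw_ne_bot_of_mem I₁
  have h2 := mw_ne_bot_of_mem I₂
  have h3 := mw_ne_bot_of_mem I₃
  have c12 : IsCoprime (I₁ : Ideal R) I₂ := c21.symm
  have c13 : IsCoprime (I₁ : Ideal R) I₃ := c3.of_mul_right_left.symm
  have c23 : IsCoprime (I₂ : Ideal R) I₃ := c3.of_mul_right_right.symm
  have h12 : (I₁ : Ideal R) * I₂ ≠ ⊥ := mw_mul_ne_bot h1 h2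
  have d12 : 𝒞.deg ((I₁ * I₂ : (Ideal R)⁰) : Ideal R) ≤ 3 * d := by
    rw [Submonoid.coe_mul, mw_deg_mul_of_isCoprime 𝒞 _ _ h1 h2 c12, d1, d2]; omega
  have d13 : 𝒞.deg ((I₁ * I₃ : (Ideal R)⁰) : Ideal R) ≤ 3 * d := by
    rw [Submonoid.coe_mul, mw_deg_mul_of_isCoprime 𝒞 _ _ h1 h3 c13, d1, d3]; omega
  have d23 : 𝒞.deg ((I₂ * I₃ : (Ideal R)⁰) : Ideal R) ≤ 3 * d := by
    rw [Submonoid.coe_mul, mw_deg_mul_of_isCoprime 𝒞 _ _ h2 h3 c23, d2, d3]; omega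
  have d123 : 𝒞.deg ((I₁ * I₂ * I₃ : (Ideal R)⁰) : Ideal R) ≤ 3 * d := by
    rw [Submonoid.coe_mul, Submonoid.coe_mul,
      mw_deg_mul_of_isCoprime 𝒞 _ _ h12 h3 c3.symm,
      mw_deg_mul_of_isCoprime 𝒞 _ _ h1 h2 c12, d1, d2, d3]; omega
  have dle : d ≤ 3 * d := by omega
  have dr : ∀ u : ClassGroup R, 𝒞.deg (rep u) ≤ 3 * d := fun u => (hrep u).1.le.trans dle
  -- the seven comparisons
  have k123 := hC₁ (rep (x * y * z)) (I₁ * I₂ * I₃) (dr _) d123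
    (by rw [(hrep _).2, map_mul, map_mul, m1, m2, m3])
  have k12 := hC₁ (rep (x * y)) (I₁ * I₂) (dr _) d12 (by rw [(hrep _).2, map_mul, m1, m2])
  have k13 := hC₁ (rep (x * z)) (I₁ * I₃) (dr _) d13 (by rw [(hrep _).2, map_mul, m1, m3])
  have k23 := hC₁ (rep (y * z)) (I₂ * I₃) (dr _) d23 (by rw [(hrep _).2, map_mul, m2, m3])
  have k1 := hC₁ (rep x) I₁ (dr _) (d1.le.trans dle) (by rw [(hrep _).2, m1])
  have k2 := hC₁ (rep y) I₂ (dr _) (d2.le.trans dle) (by rw [(hrep _).2, m2])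
  have k3 := hC₁ (rep z) I₃ (dr _) (d3.le.trans dle) (by rw [(hrep _).2, m3])
  have k0 := hC₀ I₁ I₂ I₃ h1 h2 h3 s1 s2 s3 c21 c3 d1 d2 d3
  simp only [Submonoid.coe_mul] at k123 k12 k13 k23
  rw [abs_le] at k123 k12 k13 k23 k1 k2 k3 k0 ⊢
  constructor <;> linarith [k123.1, k123.2, k12.1, k12.2, k13.1, k13.2, k23.1, k23.2,
    k1.1, k1.2, k2.1, k2.2, k3.1, k3.2, k0.1, k0.2]

/-! ### the descent -/

/-- **MW-ASM**: the seven contracts and weak Mordell-Weil give finite generation of the class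
group. -/
theorem assembly (𝒞 : MWDatum R) : 𝒞.AssemblyStatement := by
  classical
  intro hCI hS hW hH hMink hNorth hMove hWeak
  -- the parameters
  set l : ℕ := max 1 (𝒞.m₀ + 1 - 𝒞.g) with hldef
  have hl : 1 ≤ l := le_max_left _ _
  have hlg : 𝒞.m₀ + 1 ≤ l + 𝒞.g := by
    have := le_max_right 1 (𝒞.m₀ + 1 - 𝒞.g)
    omega
  have hl0 : (0 : ℝ) < l := by exact_mod_cast hl
  obtain ⟨d, hMove⟩ := hMove
  -- representatives
  have hex : ∀ x : ClassGroup R, ∃ I : (Ideal R)⁰, 𝒞.deg I = d ∧ ClassGroup.mk0 I = x := by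
    intro x
    obtain ⟨I, -, -, hd, hx⟩ := hMove x ⊤ top_ne_bot
    exact ⟨I, hd, hx⟩
  choose rep hrep using hex
  set q : ClassGroup R → ℝ := fun x => 𝒞.qH l (rep x) with hq
  obtain ⟨C, hC⟩ := mw_cube_classes 𝒞 hCI hS hW hH l d hl hlg hMove rep hrep
  obtain ⟨CM, hCM⟩ := hMink l d hl hlg
  obtain ⟨hpos, hfin⟩ := hNorth
  -- Minkowski in terms of classes
  have hmink : ∀ x : ClassGroup R, ∃ J : (Ideal R)⁰, 𝒞.deg J ≤ l + 𝒞.g - 1 ∧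
      ClassGroup.mk0 J = x⁻¹ ∧ 𝒞.hInf J ≤ q x / l + CM := by
    intro x
    obtain ⟨J, hJ1, hJ2, hJ3⟩ := hCM (rep x) (hrep x).1
    rw [(hrep x).2] at hJ2
    exact ⟨J, hJ1, hJ2, hJ3⟩
  -- positivity of `q`
  have hqpos : ∀ x : ClassGroup R, -(l * CM) ≤ q x := by
    intro x
    obtain ⟨J, -, -, hJ⟩ := hmink x
    have h0 := hpos (J : Ideal R)
    have h1 : 0 ≤ q x / l + CM := h0.trans hJ
    have h2 : q x / l * l = q x := div_mul_cancel₀ _ hl0.ne'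
    nlinarith
  -- the height
  set c : ℝ := 2 * (l * CM) with hc
  set h : ClassGroup R → ℝ := fun x => q x + q x⁻¹ + c with hh
  have hhpos : ∀ x, 0 ≤ h x := by
    intro x
    have h1 := hqpos x
    have h2 := hqpos x⁻¹
    simp only [hh, hc]
    linarith
  -- the parallelogram law
  have hpar : ∀ x y : ClassGroup R,
      |h (x * y) + h (x / y) - 2 * (h x + h y)| ≤ 2 * C + |2 * q 1 + 2 * c| := by
    intro x y
    have hA := hC x y y⁻¹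
    have hB := hC x⁻¹ y⁻¹ y
    rw [mul_inv_cancel_right, mul_inv_cancel, ← div_eq_mul_inv] at hA
    rw [inv_mul_cancel_right, inv_mul_cancel, ← mul_inv,
      show x⁻¹ * y = (x / y)⁻¹ by rw [inv_div, div_eq_mul_inv, mul_comm]] at hB
    have hE := abs_nonneg (2 * q 1 + 2 * c)
    have hE1 := le_abs_self (2 * q 1 + 2 * c)
    have hE2 := neg_abs_le (2 * q 1 + 2 * c)
    simp only [hh]
    simp only [hq] at hA hB hE hE1 hE2 ⊢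
    rw [abs_le] at hA hB ⊢
    constructor <;> linarith [hA.1, hA.2, hB.1, hB.2]
  -- Northcott
  have hnorth : Northcott h := by
    refine ⟨fun B => ?_⟩
    set S : Set (Ideal R) := {J | J ≠ ⊥ ∧ 𝒞.deg J ≤ l + 𝒞.g - 1 ∧ 𝒞.hInf J ≤ B / l} with hSdef
    have hSfin : S.Finite := hfin (l + 𝒞.g - 1) (B / l)
    set φ : Ideal R → ClassGroup R := fun J =>
      if hJ : J ≠ ⊥ then (ClassGroup.mk0 ⟨J, mem_nonZeroDivisors_iff_ne_zero.mpr hJ⟩)⁻¹ else 1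
      with hφ
    refine (hSfin.image φ).subset fun x hx => ?_
    have hx' : h x ≤ B := hx
    obtain ⟨J, hJ1, hJ2, hJ3⟩ := hmink x
    have hJne : (J : Ideal R) ≠ ⊥ := mw_ne_bot_of_mem J
    refine ⟨(J : Ideal R), ⟨hJne, hJ1, ?_⟩, ?_⟩
    · have h1 := hqpos x⁻¹
      have h2 : q x ≤ B - l * CM := by
        simp only [hh, hc] at hx'
        linarith
      have h3 : q x / l ≤ (B - l * CM) / l := div_le_div_of_nonneg_right h2 hl0.le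
      have h4 : (B - l * CM) / l = B / l - CM := by
        field_simp
      linarith
    · simp only [hφ, dif_pos hJne]
      have : (⟨(J : Ideal R), mem_nonZeroDivisors_iff_ne_zero.mpr hJne⟩ : (Ideal R)⁰) = J :=
        Subtype.ext rfl
      rw [this, hJ2, inv_inv]
  exact CommGroup.fg_of_descent' hWeak hhpos hpar

end Fermat.Agent.H5.MW

end
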