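import Fermat.Agent.H92.MW.Interfaces

/-!
# P-MW, row MW-ASM (helper5): facts about ideals of the datum

* `mw_finite_quotient` : `R ⧸ I` is finite-dimensional over `ℚ` for `I ≠ ⊥`;
* `mw_deg_mul_of_isCoprime` : `deg (I J) = deg I + deg J` for coprime nonzero ideals;
* `mw_squarefree_mul`, `mw_squarefree_mul₃` : products of coprime squarefree ideals.
-/

set_option autoImplicit false
set_option linter.unusedSectionVars false

noncomputable section

namespace Fermat.Agent.H5.MW

open Module Fermat.Agent.H92.MW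
open scoped nonZeroDivisors

variable {R : Type} [CommRing R] [Algebra ℚ R] [IsDedekindDomain R]

/-- The quotient of the coordinate ring by a nonzero ideal is finite-dimensional over `ℚ`. -/
theorem mw_finite_quotient (𝒞 : MWDatum R) (I : Ideal R) (hI : I ≠ ⊥) :
    Module.Finite ℚ (R ⧸ I) := by
  have hft : Algebra.FiniteType ℚ (R ⧸ I) :=
    𝒞.finiteType.of_surjective (Ideal.Quotient.mkₐ ℚ I) (Ideal.Quotient.mkₐ_surjective ℚ I)
  rw [Module.finite_iff_krullDimLE_zero]
  refine Ring.KrullDimLE.mk₀ fun Q hQ => ?_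
  have hsurj : Function.Surjective (Ideal.Quotient.mk I) := Ideal.Quotient.mk_surjective
  have hP : (Q.comap (Ideal.Quotient.mk I)).IsPrime := Ideal.comap_isPrime _ Q
  have hIP : I ≤ Q.comap (Ideal.Quotient.mk I) := by
    intro x hx
    rw [Ideal.mem_comap, Ideal.Quotient.eq_zero_iff_mem.mpr hx]
    exact Q.zero_mem
  have hne : Q.comap (Ideal.Quotient.mk I) ≠ ⊥ := by
    intro h0
    rw [h0, le_bot_iff] at hIP
    exact hI hIP
  have hmax : (Q.comap (Ideal.Quotient.mk I)).IsMaximal := hP.isMaximal hne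
  rcases Ideal.map_eq_top_or_isMaximal_of_surjective (Ideal.Quotient.mk I) hsurj hmax with h | h
  · rw [Ideal.map_comap_of_surjective _ hsurj] at h
    exact absurd h hQ.ne_top
  · rwa [Ideal.map_comap_of_surjective _ hsurj] at h

/-- Additivity of the degree for coprime ideals. -/
theorem mw_deg_mul_of_isCoprime (𝒞 : MWDatum R) (I J : Ideal R) (hI : I ≠ ⊥) (hJ : J ≠ ⊥)
    (h : IsCoprime I J) : 𝒞.deg (I * J) = 𝒞.deg I + 𝒞.deg J := by
  have hfI := mw_finite_quotient 𝒞 I hI
  have hfJ := mw_finite_quotient 𝒞 J hJ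
  unfold MWDatum.deg
  let e : (R ⧸ I * J) ≃+* (R ⧸ I) × (R ⧸ J) := Ideal.quotientMulEquivQuotientProd I J h
  let f : (R ⧸ I * J) →ₗ[ℚ] (R ⧸ I) × (R ⧸ J) := (e : (R ⧸ I * J) →+ _).toRatLinearMap
  have hf : Function.Bijective f := e.bijective
  rw [(LinearEquiv.ofBijective f hf).finrank_eq, Module.finrank_prod]

theorem mw_ne_bot_of_mem (I : (Ideal R)⁰) : (I : Ideal R) ≠ ⊥ :=
  nonZeroDivisors.coe_ne_zero I

theorem mw_mul_ne_bot {I J : Ideal R} (hI : I ≠ ⊥) (hJ : J ≠ ⊥) : I * J ≠ ⊥ :=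
  mul_ne_zero hI hJ

/-- The product of two coprime squarefree ideals is squarefree. -/
theorem mw_squarefree_mul {I J : Ideal R} (hI : Squarefree I) (hJ : Squarefree J)
    (h : IsCoprime I J) : Squarefree (I * J) :=
  squarefree_mul_iff.mpr ⟨h.isRelPrime, hI, hJ⟩

end Fermat.Agent.H5.MW

end
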