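import Fermat.Agent.H5.MW.Assembly
import Fermat.Agent.H92.MW.AsmInterfaces

/-!
# P-MW, row MW-ASM (helper5), final form: the quasi-quadratic Northcott height

`quadAssembly : 𝒞.QuadAssemblyStatement` : the seven top-level contracts give a function
`h : ClassGroup R → ℝ`, `h ≥ 0`, with the approximate parallelogram law and the Northcott
property (`h x = q x + q x⁻¹ + c`, `q x = Q_l(I_x)`).
-/

set_option autoImplicit false
set_option linter.unusedSectionVars false

noncomputable section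

namespace Fermat.Agent.H5.MW

open Module Fermat.Agent.H92.MW
open scoped nonZeroDivisors

variable {R : Type} [CommRing R] [Algebra ℚ R] [IsDedekindDomain R]

/-- **MW-ASM**, final form: the seven contracts give a quasi-quadratic Northcott height on the
class group. -/
theorem quadAssembly (𝒞 : MWDatum R) : 𝒞.QuadAssemblyStatement := by
  classical
  intro hCI hS hW hH hMink hNorth hMove
  -- the parameters
  set l : ℕ := max 1 (𝒞.m₀ + 1 - 𝒞.g) with hldef
  have hl : 1 ≤ l := le_max_left _ _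
  have hlg : 𝒞.m₀ + 1 ≤ l + 𝒞.g := by
    have := le_max_right 1 (𝒞.m₀ + 1 - 𝒞.g)
    omega
  have hl0 : (0 : ℝ) < l := by exact_mod_cast hl
  obtain ⟨d, hMove⟩ := hMove
  -- representatives
  have hex : ∀ x : ClassGroup R, ∃ I : (Ideal R)⁰, 𝒞.deg I = d ∧ ClassGroup.mk0 I = x := by
    intro x
    obtain ⟨I, -, -, hd, hx⟩ := hMove x ⊤ top_ne_bot
    exact ⟨I, hd, hx⟩
  choose rep hrep using hex
  set q : ClassGroup R → ℝ := fun x => 𝒞.qH l (rep x) with hq
  obtain ⟨C, hC⟩ := mw_cube_classes 𝒞 hCI hS hW hH l d hl hlg hMove rep hrep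
  obtain ⟨CM, hCM⟩ := hMink l d hl hlg
  obtain ⟨hpos, hfin⟩ := hNorth
  -- Minkowski in terms of classes
  have hmink : ∀ x : ClassGroup R, ∃ J : (Ideal R)⁰, 𝒞.deg J ≤ l + 𝒞.g - 1 ∧
      ClassGroup.mk0 J = x⁻¹ ∧ 𝒞.hInf J ≤ q x / l + CM := by
    intro x
    obtain ⟨J, hJ1, hJ2, hJ3⟩ := hCM (rep x) (hrep x).1
    rw [(hrep x).2] at hJ2
    exact ⟨J, hJ1, hJ2, hJ3⟩
  -- positivity of `q`
  have hqpos : ∀ x : ClassGroup R, -(l * CM) ≤ q x := by
    intro x
    obtain ⟨J, -, -, hJ⟩ := hmink x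
    have h0 := hpos (J : Ideal R)
    have h1 : 0 ≤ q x / l + CM := h0.trans hJ
    have h2 : q x / l * l = q x := div_mul_cancel₀ _ hl0.ne'
    nlinarith
  -- the height
  set c : ℝ := 2 * (l * CM) with hc
  set h : ClassGroup R → ℝ := fun x => q x + q x⁻¹ + c with hh
  have hhpos : ∀ x, 0 ≤ h x := by
    intro x
    have h1 := hqpos x
    have h2 := hqpos x⁻¹
    simp only [hh, hc]
    linarith
  -- the parallelogram law
  have hpar : ∀ x y : ClassGroup R,
      |h (x * y) + h (x / y) - 2 * (h x + h y)| ≤ 2 * C + |2 * q 1 + 2 * c| := by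
    intro x y
    have hA := hC x y y⁻¹
    have hB := hC x⁻¹ y⁻¹ y
    rw [mul_inv_cancel_right, mul_inv_cancel, ← div_eq_mul_inv] at hA
    rw [inv_mul_cancel_right, inv_mul_cancel, ← mul_inv,
      show x⁻¹ * y = (x / y)⁻¹ by rw [inv_div, div_eq_mul_inv, mul_comm]] at hB
    have hE := abs_nonneg (2 * q 1 + 2 * c)
    have hE1 := le_abs_self (2 * q 1 + 2 * c)
    have hE2 := neg_abs_le (2 * q 1 + 2 * c)
    simp only [hh]
    simp only [hq] at hA hB hE hE1 hE2 ⊢
    rw [abs_le] at hA hB ⊢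
    constructor <;> linarith [hA.1, hA.2, hB.1, hB.2]
  -- Northcott
  have hnorth : ∀ B : ℝ, {x : ClassGroup R | h x ≤ B}.Finite := by
    intro B
    set S : Set (Ideal R) := {J | J ≠ ⊥ ∧ 𝒞.deg J ≤ l + 𝒞.g - 1 ∧ 𝒞.hInf J ≤ B / l} with hSdef
    have hSfin : S.Finite := hfin (l + 𝒞.g - 1) (B / l)
    set φ : Ideal R → ClassGroup R := fun J =>
      if hJ : J ≠ ⊥ then (ClassGroup.mk0 ⟨J, mem_nonZeroDivisors_iff_ne_zero.mpr hJ⟩)⁻¹ else 1
      with hφ
    refine (hSfin.image φ).subset fun x hx => ?_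
    have hx' : h x ≤ B := hx
    obtain ⟨J, hJ1, hJ2, hJ3⟩ := hmink x
    have hJne : (J : Ideal R) ≠ ⊥ := mw_ne_bot_of_mem J
    refine ⟨(J : Ideal R), ⟨hJne, hJ1, ?_⟩, ?_⟩
    · have h1 := hqpos x⁻¹
      have h2 : q x ≤ B - l * CM := by
        simp only [hh, hc] at hx'
        linarith
      have h3 : q x / l ≤ (B - l * CM) / l := div_le_div_of_nonneg_right h2 hl0.le
      have h4 : (B - l * CM) / l = B / l - CM := by
        field_simp
      linarith
    · simp only [hφ, dif_pos hJne]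
      have : (⟨(J : Ideal R), mem_nonZeroDivisors_iff_ne_zero.mpr hJne⟩ : (Ideal R)⁰) = J :=
        Subtype.ext rfl
      rw [this, hJ2, inv_inv]
  exact ⟨h, 2 * C + |2 * q 1 + 2 * c|, hhpos, hpar, hnorth⟩

/-- The assembly from the quasi-quadratic height (second proof of `assembly`). -/
theorem assembly_of_quad (𝒞 : MWDatum R) (hq : 𝒞.QuadStatement) (hWeak : 𝒞.WeakStatement) :
    𝒞.FGStatement := by
  obtain ⟨h, C, hpos, hpar, hfin⟩ := hq
  have : Northcott h := ⟨hfin⟩
  exact CommGroup.fg_of_descent' hWeak hpos hpar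

end Fermat.Agent.H5.MW

end
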